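/-
GATE-B (S38/S43) / CASE A node A5, leaf K2-GEN, part 2 (helper19): **the kernel of reduction is
`m`-divisible IN ITSELF, and `m`-torsion of the special fibre LIFTS.**

Abstract frame `(R : RedData K F k Ft) (H : LSpaceHyp R g c)` of `GH/Vocab.lean`, `K` algebraically
closed, `m ≥ 1` with `(m : k) ≠ 0`, `r_* = Finsupp.mapDomain (rOf H)` the specialisation of
divisors.

* `IsPrin1 R X`          : `X = div f` for some `f ∈ Rw` with `red f = 1` (closed under `0, +, −`;
                         implies `X` principal and `r_* X = 0`);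
* `exists_pair_root`   : `rOf P = rOf P'` ⟹ `∃ Y`, `deg Y = 0`, `r_* Y = 0`,
                         `IsPrin1 R (m • Y − (P − P'))`
                         (the witness `E − G` of the UPFV pair theorem has zero specialisation);
* `exists_root_of_mapDomain_eq_zero` : `r_* X = 0` ⟹ `∃ Y`, `deg Y = 0`, `r_* Y = 0`,
                         `IsPrin1 R (m • Y − X)`
                         (the group `{[D] : r_* D = 0}` is `m`-divisible in itself);
* `exists_lift_torsion` : **torsion lifting** — `m • D̃` principal on the special fibre ⟹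
                         `∃ D`, `deg D = 0`, `r_* D = D̃`, `m • D` principal;
* `exists_lift_unit`    : unit form — `ū ≠ 0` with `m ∣ ord_Q ū` for all `Q` ⟹ `∃ u ∈ Rw`,
                         `red u = ū` EXACTLY and `m ∣ ord_P u` for all `P`
                         (`J[m] → J̃[m]` is onto; no count of torsion on the special fibre needed).
-/
import Fermat.Agent.GB.A.K2Gen.Functions
import Fermat.Agent.GR.W.K2.KerGen

set_option autoImplicit false
set_option maxHeartbeats 1000000

noncomputable section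

open AlgebraicCurve Module

namespace Fermat.Agent.GB.A.K2Gen.Divisible

open Fermat.Agent.RRh45 Fermat.Agent.GJ.S37MinDiv Fermat.Agent.GJ.J1 Fermat.Agent.GJ.S37LSpace
  Fermat.Agent.GJ.S37ROfSurj Fermat.Agent.GH Fermat.Agent.GR.W.K2.Upfv
  Fermat.Agent.GR.W.K2.KerGen

variable {K F k Ft : Type*} [Field K] [Field F] [Algebra K F] [Field k] [Field Ft] [Algebra k Ft]
variable {R : RedData K F k Ft} {g c : ℤ}
variable [FiniteResidues K F] [HasPrincipalDivisors K F] [Nonempty (Place K F)]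
variable [FiniteResidues k Ft] [HasPrincipalDivisors k Ft] [Nonempty (Place k Ft)]
variable [Infinite k]

omit [FiniteResidues K F] [Nonempty (Place K F)] [FiniteResidues k Ft]
  [HasPrincipalDivisors k Ft] [Nonempty (Place k Ft)] [Infinite k] in
/-- principal divisors have degree zero -/
theorem degree_eq_zero_of_mem_principal {D : Divisor K F}
    (hD : D ∈ Divisor.principal (K := K) (F := F)) : Divisor.degree D = 0 := by
  obtain ⟨f, hf, hDf⟩ := hD
  obtain ⟨D', hD', hdeg⟩ := HasPrincipalDivisors.exists_divisor (K := K) f hf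
  have : D = D' := Finsupp.ext fun v => by rw [hDf v, hD' v]
  rw [this]
  exact hdeg

omit [FiniteResidues K F] [HasPrincipalDivisors K F] [Nonempty (Place K F)] [FiniteResidues k Ft]
  [HasPrincipalDivisors k Ft] [Nonempty (Place k Ft)] [Infinite k] in
/-- `ℤ`-valued finitely supported functions are torsion-free -/
theorem eq_zero_of_nsmul_eq_zero {α : Type*} {m : ℕ} (hm : m ≠ 0) {Z : α →₀ ℤ}
    (h : m • Z = 0) : Z = 0 := by
  ext a
  have := congrArg (fun W : α →₀ ℤ => W a) h
  simp only [Finsupp.smul_apply, Finsupp.zero_apply, nsmul_eq_mul] at this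
  rcases mul_eq_zero.mp this with h1 | h1
  · exact absurd (by exact_mod_cast h1) hm
  · exact h1

/-! ### Gauss-normalised principal divisors -/

/-- `X = div f` for a function `f` of the Gauss ring with reduction `1`. -/
def IsPrin1 (R : RedData K F k Ft) (X : Divisor K F) : Prop :=
  ∃ f : R.Rw, R.red f = 1 ∧ ∀ P₀ : Place K F, X P₀ = P₀.ord (f : F)

omit [FiniteResidues K F] [HasPrincipalDivisors K F] [Nonempty (Place K F)] [FiniteResidues k Ft]
  [HasPrincipalDivisors k Ft] [Nonempty (Place k Ft)] [Infinite k] in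
theorem IsPrin1.zero : IsPrin1 R (0 : Divisor K F) :=
  ⟨1, map_one _, fun P₀ => by rw [Finsupp.zero_apply, OneMemClass.coe_one, Place.ord_one]⟩

omit [FiniteResidues K F] [HasPrincipalDivisors K F] [Nonempty (Place K F)] [FiniteResidues k Ft]
  [HasPrincipalDivisors k Ft] [Nonempty (Place k Ft)] [Infinite k] in
theorem IsPrin1.add {X X' : Divisor K F} (h : IsPrin1 R X) (h' : IsPrin1 R X') :
    IsPrin1 R (X + X') := by
  obtain ⟨f, hf1, hf⟩ := h
  obtain ⟨f', hf1', hf'⟩ := h'
  refine ⟨f * f', by rw [map_mul, hf1, hf1', mul_one], fun P₀ => ?_⟩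
  rw [Finsupp.add_apply, hf P₀, hf' P₀, MulMemClass.coe_mul,
    Place.ord_mul _ (Book.coe_ne_zero_of_red_eq_one hf1) (Book.coe_ne_zero_of_red_eq_one hf1')]

omit [FiniteResidues K F] [HasPrincipalDivisors K F] [Nonempty (Place K F)] [FiniteResidues k Ft]
  [HasPrincipalDivisors k Ft] [Nonempty (Place k Ft)] [Infinite k] in
/-- a function of reduction `1` is a unit of the Gauss ring, with inverse of reduction `1`. -/
theorem exists_inv_of_red_eq_one {f : R.Rw} (hf1 : R.red f = 1) :
    ∃ f' : R.Rw, R.red f' = 1 ∧ (f' : F) = ((f : F))⁻¹ := by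
  have hunit : IsUnit f := by
    by_contra h
    have hmem : f ∈ IsLocalRing.maximalIdeal R.Rw := (IsLocalRing.mem_maximalIdeal f).mpr h
    rw [← R.red_eq_zero_iff, hf1] at hmem
    exact one_ne_zero hmem
  obtain ⟨w, hw⟩ := hunit
  refine ⟨((w⁻¹ : (R.Rw)ˣ) : R.Rw), ?_, ?_⟩
  · have h1 : R.red (w : R.Rw) * R.red ((w⁻¹ : (R.Rw)ˣ) : R.Rw) = 1 := by
      rw [← map_mul, Units.mul_inv, map_one]
    rw [hw, hf1, one_mul] at h1
    exact h1
  · have h1 : (f : F) * (((w⁻¹ : (R.Rw)ˣ) : R.Rw) : F) = 1 := by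
      rw [← hw, ← MulMemClass.coe_mul, Units.mul_inv, OneMemClass.coe_one]
    exact eq_inv_of_mul_eq_one_right h1

omit [FiniteResidues K F] [HasPrincipalDivisors K F] [Nonempty (Place K F)] [FiniteResidues k Ft]
  [HasPrincipalDivisors k Ft] [Nonempty (Place k Ft)] [Infinite k] in
theorem IsPrin1.neg {X : Divisor K F} (h : IsPrin1 R X) : IsPrin1 R (-X) := by
  obtain ⟨f, hf1, hf⟩ := h
  obtain ⟨f', hf1', hf'⟩ := exists_inv_of_red_eq_one hf1
  refine ⟨f', hf1', fun P₀ => ?_⟩
  rw [Finsupp.neg_apply, hf P₀, hf', Place.ord_inv]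

omit [FiniteResidues K F] [HasPrincipalDivisors K F] [Nonempty (Place K F)] [FiniteResidues k Ft]
  [HasPrincipalDivisors k Ft] [Nonempty (Place k Ft)] [Infinite k] in
theorem IsPrin1.mem_principal {X : Divisor K F} (h : IsPrin1 R X) :
    X ∈ Divisor.principal (K := K) (F := F) := by
  obtain ⟨f, hf1, hf⟩ := h
  exact ⟨(f : F), Book.coe_ne_zero_of_red_eq_one hf1, hf⟩

theorem IsPrin1.mapDomain_eq_zero (H : LSpaceHyp R g c) {X : Divisor K F} (h : IsPrin1 R X) :
    Finsupp.mapDomain (rOf H) X = 0 := by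
  obtain ⟨f, hf1, hf⟩ := h
  exact Book.mapDomain_div_eq_zero H hf1 hf

/-- **refined pair theorem**: the `m`-th root of `[P − P']` may be taken with zero
specialisation. -/
theorem exists_pair_root [IsAlgClosed K] (H : LSpaceHyp R g c) {n : ℕ} (hn : (n : ℤ) = g)
    {m : ℕ} (hm : 1 ≤ m) (hmk : (m : k) ≠ 0) {P P' : Place K F} (hPP' : rOf H P = rOf H P') :
    ∃ Y : Divisor K F, Divisor.degree Y = 0 ∧ Finsupp.mapDomain (rOf H) Y = 0 ∧
      IsPrin1 R (m • Y - (Finsupp.single P 1 - Finsupp.single P' 1)) := by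
  classical
  have hm0 : m ≠ 0 := by omega
  obtain ⟨𝔠, 𝔠'', hdisj, u, f, v, hu1, hf1, hv1, hu, hf, hv, huv⟩ :=
    Functions.exists_upfv_functions H hn hm hmk hPP'
  obtain ⟨E, -, hE⟩ := Book.exists_div_eq H m hPP' (Book.hdisj_of_charts H 𝔠 𝔠'' hdisj)
    hu1 hf1 hv1 hu hf hv huv
  have hf0 : (f : F) ≠ 0 := Book.coe_ne_zero_of_red_eq_one hf1
  set Y : Divisor K F := E - 𝔠.D0 with hY
  set X : Divisor K F := Finsupp.single P 1 - Finsupp.single P' 1 with hX
  -- `div f = m • Y − X`
  have hdiv : ∀ P₀ : Place K F, (m • Y - X : Divisor K F) P₀ = P₀.ord (f : F) := by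
    intro P₀
    rw [hE P₀, hY, hX]
    simp only [Finsupp.sub_apply, Finsupp.add_apply, Finsupp.smul_apply, nsmul_eq_mul]
    ring
  have hprinc1 : IsPrin1 R (m • Y - X) := ⟨f, hf1, hdiv⟩
  have hprinc : m • Y - X ∈ Divisor.principal (K := K) (F := F) := ⟨(f : F), hf0, hdiv⟩
  -- specialisations
  have hrX : Finsupp.mapDomain (rOf H) X = 0 := by
    rw [hX, Finsupp.mapDomain_sub, Finsupp.mapDomain_single, Finsupp.mapDomain_single, hPP',
      sub_self]
  have hrf : Finsupp.mapDomain (rOf H) (m • Y - X) = 0 :=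
    Book.mapDomain_div_eq_zero H hf1 hdiv
  have hrY : Finsupp.mapDomain (rOf H) Y = 0 := by
    apply eq_zero_of_nsmul_eq_zero hm0
    rw [Finsupp.mapDomain_sub, hrX, sub_zero, Finsupp.mapDomain_smul] at hrf
    exact hrf
  -- degrees
  have hdegX : Divisor.degree X = 0 := by
    rw [hX, map_sub, Divisor.degree_single, Divisor.degree_single, H.degF P, H.degF P']
    simp
  have hdegY : Divisor.degree Y = 0 := by
    have h1 := degree_eq_zero_of_mem_principal hprinc
    rw [map_sub, hdegX, sub_zero, map_nsmul, nsmul_eq_mul] at h1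
    rcases mul_eq_zero.mp h1 with h2 | h2
    · exact absurd (by exact_mod_cast h2) hm0
    · exact h2
  exact ⟨Y, hdegY, hrY, hprinc1⟩

/-- sums of pairs have `m`-th roots with zero specialisation. -/
theorem exists_root_of_mem_closure [IsAlgClosed K] (H : LSpaceHyp R g c) {n : ℕ}
    (hn : (n : ℤ) = g) {m : ℕ} (hm : 1 ≤ m) (hmk : (m : k) ≠ 0) (X : Divisor K F)
    (hmem : X ∈ AddSubgroup.closure (pairs (rOf H))) :
    ∃ Y : Divisor K F, Divisor.degree Y = 0 ∧ Finsupp.mapDomain (rOf H) Y = 0 ∧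
      IsPrin1 R (m • Y - X) := by
  induction hmem using AddSubgroup.closure_induction with
  | mem x hx =>
    obtain ⟨P, P', hPP', rfl⟩ := hx
    exact exists_pair_root H hn hm hmk hPP'
  | zero =>
    exact ⟨0, map_zero _, Finsupp.mapDomain_zero, by
      rw [smul_zero, sub_zero]; exact IsPrin1.zero⟩
  | add x y _ _ hx hy =>
    obtain ⟨Y₁, hd₁, hr₁, hp₁⟩ := hx
    obtain ⟨Y₂, hd₂, hr₂, hp₂⟩ := hy
    refine ⟨Y₁ + Y₂, by rw [map_add, hd₁, hd₂, add_zero], by
      rw [Finsupp.mapDomain_add, hr₁, hr₂, add_zero], ?_⟩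
    have : m • (Y₁ + Y₂) - (x + y) = (m • Y₁ - x) + (m • Y₂ - y) := by
      rw [smul_add]; abel
    rw [this]
    exact hp₁.add hp₂
  | neg x _ hx =>
    obtain ⟨Y₁, hd₁, hr₁, hp₁⟩ := hx
    refine ⟨-Y₁, by rw [map_neg, hd₁, neg_zero], by
      rw [← Finsupp.mapDomain.addMonoidHom_apply, map_neg, Finsupp.mapDomain.addMonoidHom_apply,
        hr₁, neg_zero], ?_⟩
    have : m • (-Y₁) - (-x) = -(m • Y₁ - x) := by
      rw [smul_neg]; abel
    rw [this]
    exact hp₁.neg

/-- **the kernel of specialisation is `m`-divisible in itself** (divisor form). -/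
theorem exists_root_of_mapDomain_eq_zero [IsAlgClosed K] (H : LSpaceHyp R g c) {n : ℕ}
    (hn : (n : ℤ) = g) {m : ℕ} (hm : 1 ≤ m) (hmk : (m : k) ≠ 0) (X : Divisor K F)
    (hX : Finsupp.mapDomain (rOf H) X = 0) :
    ∃ Y : Divisor K F, Divisor.degree Y = 0 ∧ Finsupp.mapDomain (rOf H) Y = 0 ∧
      IsPrin1 R (m • Y - X) :=
  exists_root_of_mem_closure H hn hm hmk X (mem_closure_pairs_of_mapDomain_eq_zero (rOf H) X hX)

/-- **TORSION LIFTING.**  A divisor `D̃` of the special fibre with `m • D̃` principal is the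
specialisation of a degree-zero divisor `D` of the generic fibre with `m • D` principal. -/
theorem exists_lift_torsion [IsAlgClosed K] (H : LSpaceHyp R g c) {n : ℕ} (hn : (n : ℤ) = g)
    {m : ℕ} (hm : 1 ≤ m) (hmk : (m : k) ≠ 0) (Dt : Divisor k Ft)
    (hDt : m • Dt ∈ Divisor.principal (K := k) (F := Ft)) :
    ∃ D : Divisor K F, Divisor.degree D = 0 ∧ Finsupp.mapDomain (rOf H) D = Dt ∧
      m • D ∈ Divisor.principal (K := K) (F := F) := by
  classical
  have hm0 : m ≠ 0 := by omega
  -- lift the points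
  choose s hs using rOf_surjective H
  set D₀ : Divisor K F := Finsupp.mapDomain s Dt with hD₀
  have hrD₀ : Finsupp.mapDomain (rOf H) D₀ = Dt := by
    rw [hD₀, ← Finsupp.mapDomain_comp]
    have : rOf H ∘ s = id := funext hs
    rw [this, Finsupp.mapDomain_id]
  -- `r_* (m • D₀)` is principal
  have hpr : Finsupp.mapDomain (rOf H) (m • D₀) ∈ Divisor.principal (K := k) (F := Ft) := by
    rw [Finsupp.mapDomain_smul, hrD₀]
    exact hDt
  obtain ⟨Dy, hDy, h0⟩ := exists_principal_sub H hpr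
  obtain ⟨Y, hdY, hrY, hpY⟩ := exists_root_of_mapDomain_eq_zero H hn hm hmk _ h0
  have hprinc : m • (D₀ - Y) ∈ Divisor.principal (K := K) (F := F) := by
    have : m • (D₀ - Y) = Dy - (m • Y - (m • D₀ - Dy)) := by
      rw [smul_sub]; abel
    rw [this]
    exact AddSubgroup.sub_mem _ hDy hpY.mem_principal
  refine ⟨D₀ - Y, ?_, ?_, hprinc⟩
  · have h1 := degree_eq_zero_of_mem_principal hprinc
    rw [map_nsmul, nsmul_eq_mul] at h1
    rcases mul_eq_zero.mp h1 with h2 | h2
    · exact absurd (by exact_mod_cast h2) hm0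
    · exact h2
  · rw [Finsupp.mapDomain_sub, hrD₀, hrY, sub_zero]

/-- **TORSION LIFTING, unit form.**  A nonzero function `ū` of the special fibre whose divisor is
divisible by `m` is the reduction of a Gauss-integral function `u` whose divisor is divisible by
`m` (`= J[m] → J̃[m]` is onto, in Kummer language: every class of `Kum_m` of the special fibre is
the reduction of a class of `Kum_m` of the generic fibre). -/
theorem exists_lift_unit [IsAlgClosed K] (H : LSpaceHyp R g c) {n : ℕ} (hn : (n : ℤ) = g)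
    {m : ℕ} (hm : 1 ≤ m) (hmk : (m : k) ≠ 0) {ut : Ft} (hut : ut ≠ 0)
    (hdiv : ∀ Q : Place k Ft, (m : ℤ) ∣ Q.ord ut) :
    ∃ u : R.Rw, R.red u = ut ∧ ∀ P : Place K F, (m : ℤ) ∣ P.ord (u : F) := by
  classical
  have hm0 : m ≠ 0 := by omega
  have hmZ : (m : ℤ) ≠ 0 := Int.natCast_ne_zero.2 hm0
  -- `(1/m) div ū`
  obtain ⟨Dut, hDut, -⟩ := HasPrincipalDivisors.exists_divisor (K := k) ut hut
  set Dt : Divisor k Ft := Dut.mapRange (fun a => a / (m : ℤ)) (Int.zero_ediv _) with hDt
  have hmDt : m • Dt = Dut := by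
    ext Q
    rw [Finsupp.smul_apply, hDt, Finsupp.mapRange_apply, nsmul_eq_mul, hDut Q]
    exact Int.mul_ediv_cancel' (hdiv Q)
  -- lift the points
  choose s hs using rOf_surjective H
  set D₀ : Divisor K F := Finsupp.mapDomain s Dt with hD₀
  have hrD₀ : Finsupp.mapDomain (rOf H) D₀ = Dt := by
    rw [hD₀, ← Finsupp.mapDomain_comp]
    have : rOf H ∘ s = id := funext hs
    rw [this, Finsupp.mapDomain_id]
  -- lift the function
  obtain ⟨y, hy⟩ := R.red_surjective ut
  have hy0 : R.red y ≠ 0 := by rw [hy]; exact hut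
  have hyF : (y : F) ≠ 0 := fun h => hy0 (by rw [show y = 0 from Subtype.ext h, map_zero])
  obtain ⟨Dy, hDy, -⟩ := HasPrincipalDivisors.exists_divisor (K := K) (y : F) hyF
  have h0 : Finsupp.mapDomain (rOf H) (m • D₀ - Dy) = 0 := by
    ext Q
    rw [Finsupp.mapDomain_sub, Finsupp.mapDomain_smul, hrD₀, hmDt, Finsupp.sub_apply,
      mapDomain_rOf_principal H hy0 hDy Q, hy, hDut Q, sub_self, Finsupp.zero_apply]
  obtain ⟨Y, -, -, f, hf1, hf⟩ := exists_root_of_mapDomain_eq_zero H hn hm hmk _ h0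
  obtain ⟨f', hf1', hf'⟩ := exists_inv_of_red_eq_one hf1
  refine ⟨y * f', by rw [map_mul, hy, hf1', mul_one], fun P => ⟨(D₀ - Y) P, ?_⟩⟩
  have hfP := hf P
  simp only [Finsupp.sub_apply, Finsupp.smul_apply, nsmul_eq_mul] at hfP
  rw [MulMemClass.coe_mul, Place.ord_mul _ hyF (Book.coe_ne_zero_of_red_eq_one hf1'), hf',
    Place.ord_inv, ← hDy P, ← hfP, Finsupp.sub_apply]
  ring

end Fermat.Agent.GB.A.K2Gen.Divisible
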