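/-
GATE-B (S38/S43) / CASE A node A5, leaf K2-GEN, part 3 (helper19): the instance of
`K2Gen/Divisible.lean` for `X₀(N)` at a GOOD prime, in the BAR frame
`redDataBar N A : RedData ℚ̄ F_N (kA A) (FresBar N A)` of `GH/Inst`
(`ℓ ∤ N`; `3 ∣ N` if `ℓ = 2`, `2 ∣ N` if `ℓ = 3`; `A` a place of `ℚ̄` over `ℓ`; `ℓ ∤ m`).

* `exists_lift_unit_bar`  : `ū ∈ FresBar N A`, `ū ≠ 0`, `m ∣ ord_Q ū ∀ Q` ⟹ `∃ u ∈ Rw`,
                            `red u = ū`, `m ∣ ord_P u ∀ P`;
* `exists_lift_pDivUnits_bar` : the same in `pDivUnits` clothing (= every class of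
                            `Kum_m (FresBar N A)` is the reduction of a class of `Kum_m (F_N)`);
* `exists_lift_torsion_bar`, `exists_root_of_mapDomain_eq_zero_bar` : divisor forms.
-/
import Fermat.Agent.GB.A.K2Gen.Divisible
import Fermat.Agent.GH.Inst.Main
import Fermat.Agent.GJ.J2.EigIface

set_option autoImplicit false
set_option synthInstance.maxHeartbeats 400000
set_option maxHeartbeats 1000000

noncomputable section

open AlgebraicCurve ModularCurve

namespace Fermat.Agent.GB.A.K2Gen.Bar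

open Fermat.Agent.RRh45 Fermat.Agent.GJ.J1 Fermat.Agent.GJ.J1.Val Fermat.Agent.GJ.S37LSpace
  Fermat.Agent.GJ.S37Bridge Fermat.Agent.S24 Fermat.Agent.GH.Inst Fermat.Agent.GJ.KumGroup

local notation "Qb" => AlgebraicClosure ℚ

variable (N : ℕ) [NeZero N] (A : ValuationSubring Qb)

/-- `m` is invertible in the residue field of a place over `ℓ ∤ m`. -/
theorem natCast_kA_ne_zero {ℓ : ℕ} (hℓ : ℓ.Prime) (hA : A.LiesOverPrime ℓ) {m : ℕ}
    (hmℓ : ¬ ℓ ∣ m) : (m : kA A) ≠ 0 := by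
  haveI := charP_kA A hℓ hA
  rw [Ne, CharP.cast_eq_zero_iff (kA A) ℓ]
  exact hmℓ

/-- **torsion lifting, unit form, BAR frame.** -/
theorem exists_lift_unit_bar {ℓ : ℕ} (hℓ : ℓ.Prime) (hℓN : ¬ ℓ ∣ N) (h2 : ℓ = 2 → 3 ∣ N)
    (h3 : ℓ = 3 → 2 ∣ N) (hA : A.LiesOverPrime ℓ) {m : ℕ} (hm : 1 ≤ m) (hmℓ : ¬ ℓ ∣ m)
    {ut : FresBar N A} (hut : ut ≠ 0)
    (hdiv : ∀ Q : Place (kA A) (FresBar N A), (m : ℤ) ∣ Q.ord ut) :
    ∃ u : (redDataBar N A).Rw, (redDataBar N A).red u = ut ∧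
      ∀ P : Place Qb (modularFunctionFieldBar N),
        (m : ℤ) ∣ P.ord ((u : (redDataBar N A).Rw) : modularFunctionFieldBar N) := by
  obtain ⟨g, c, n, H, hn⟩ := exists_frame_bar N A hℓ hℓN h2 h3 hA
  have := finiteResidues_bar N
  have := hasPrincipalDivisors_bar N
  have := nonempty_place_bar N
  have := finiteResidues_fresBar N A
  have := hasPrincipalDivisors_fresBar N A
  have := nonempty_place_fresBar N A
  have := infinite_kA A
  exact Divisible.exists_lift_unit H hn hm (natCast_kA_ne_zero A hℓ hA hmℓ) hut hdiv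

/-- **torsion lifting in `pDivUnits` clothing**: every `m`-divisible unit of the special fibre is
the reduction of a Gauss-integral `m`-divisible unit of `F_N`. -/
theorem exists_lift_pDivUnits_bar {ℓ : ℕ} (hℓ : ℓ.Prime) (hℓN : ¬ ℓ ∣ N) (h2 : ℓ = 2 → 3 ∣ N)
    (h3 : ℓ = 3 → 2 ∣ N) (hA : A.LiesOverPrime ℓ) {m : ℕ} (hm : 1 ≤ m) (hmℓ : ¬ ℓ ∣ m)
    (ut : pDivUnits (kA A) (FresBar N A) m) :
    ∃ (u : pDivUnits Qb (FK N) m)
      (hu : (((u : (FK N)ˣ) : FK N)) ∈ (redDataBar N A).Rw),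
      (redDataBar N A).red ⟨((u : (FK N)ˣ) : FK N), hu⟩ = (((ut : (FresBar N A)ˣ)) : FresBar N A) := by
  obtain ⟨u, hu, hdiv⟩ := exists_lift_unit_bar N A hℓ hℓN h2 h3 hA hm hmℓ
    (ut : (FresBar N A)ˣ).ne_zero (fun Q => ut.2 Q)
  have hu0 : ((u : (redDataBar N A).Rw) : FK N) ≠ 0 := by
    intro h
    have h0 : u = 0 := Subtype.ext h
    rw [h0, map_zero] at hu
    exact (ut : (FresBar N A)ˣ).ne_zero hu.symm
  exact ⟨⟨Units.mk0 _ hu0, fun P => hdiv P⟩, u.2, hu⟩

/-- **the kernel of specialisation is `m`-divisible in itself**, BAR frame, for every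
`LSpaceHyp` of the datum. -/
theorem exists_root_of_mapDomain_eq_zero_bar {ℓ : ℕ} (hℓ : ℓ.Prime) (hA : A.LiesOverPrime ℓ)
    {g c : ℤ} (H : LSpaceHyp (redDataBar N A) g c) {n : ℕ} (hn : (n : ℤ) = g) {m : ℕ}
    (hm : 1 ≤ m) (hmℓ : ¬ ℓ ∣ m) (X : Divisor Qb (modularFunctionFieldBar N)) :
    haveI := finiteResidues_bar N
    haveI := hasPrincipalDivisors_bar N
    haveI := nonempty_place_bar N
    haveI := finiteResidues_fresBar N A
    haveI := hasPrincipalDivisors_fresBar N A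
    haveI := nonempty_place_fresBar N A
    haveI := infinite_kA A
    Finsupp.mapDomain (rOf H) X = 0 →
    ∃ Y : Divisor Qb (modularFunctionFieldBar N), Divisor.degree Y = 0 ∧
      Finsupp.mapDomain (rOf H) Y = 0 ∧
      m • Y - X ∈ Divisor.principal (K := Qb) (F := modularFunctionFieldBar N) := by
  intro hX
  have := finiteResidues_bar N
  have := hasPrincipalDivisors_bar N
  have := nonempty_place_bar N
  have := finiteResidues_fresBar N A
  have := hasPrincipalDivisors_fresBar N A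
  have := nonempty_place_fresBar N A
  have := infinite_kA A
  obtain ⟨Y, h1, h2, h3⟩ := Divisible.exists_root_of_mapDomain_eq_zero H hn hm
    (natCast_kA_ne_zero A hℓ hA hmℓ) X hX
  exact ⟨Y, h1, h2, h3.mem_principal⟩

/-- **torsion lifting, divisor form**, BAR frame. -/
theorem exists_lift_torsion_bar {ℓ : ℕ} (hℓ : ℓ.Prime) (hA : A.LiesOverPrime ℓ)
    {g c : ℤ} (H : LSpaceHyp (redDataBar N A) g c) {n : ℕ} (hn : (n : ℤ) = g) {m : ℕ}
    (hm : 1 ≤ m) (hmℓ : ¬ ℓ ∣ m) (Dt : Divisor (kA A) (FresBar N A))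
    (hDt : m • Dt ∈ Divisor.principal (K := kA A) (F := FresBar N A)) :
    haveI := finiteResidues_bar N
    haveI := hasPrincipalDivisors_bar N
    haveI := nonempty_place_bar N
    haveI := finiteResidues_fresBar N A
    haveI := hasPrincipalDivisors_fresBar N A
    haveI := nonempty_place_fresBar N A
    haveI := infinite_kA A
    ∃ D : Divisor Qb (modularFunctionFieldBar N), Divisor.degree D = 0 ∧
      Finsupp.mapDomain (rOf H) D = Dt ∧
      m • D ∈ Divisor.principal (K := Qb) (F := modularFunctionFieldBar N) := by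
  have := finiteResidues_bar N
  have := hasPrincipalDivisors_bar N
  have := nonempty_place_bar N
  have := finiteResidues_fresBar N A
  have := hasPrincipalDivisors_fresBar N A
  have := nonempty_place_fresBar N A
  have := infinite_kA A
  exact Divisible.exists_lift_torsion H hn hm (natCast_kA_ne_zero A hℓ hA hmℓ) Dt hDt

end Fermat.Agent.GB.A.K2Gen.Bar
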